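import Fermat.Agent.Lib.DivPoly.Defs

/-!
# (T-a) The `p`-torsion of a Weierstrass curve has at most `p²` points

From the in-range statement `InRange W`: the `x`-coordinates of nonzero `p`-torsion points are
roots of `preΨ'_p`, of degree `(p² - 1)/2`.
-/

set_option autoImplicit false

namespace Fermat.Agent.DivPoly

open WeierstrassCurve Polynomial S05H65

variable {F : Type*} [Field F] [DecidableEq F] {W : WeierstrassCurve.Affine F}

/-- A point killed by the prime `p` and nonzero is not killed by `k` for `1 ≤ k < p`. -/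
lemma nsmul_ne_zero_of_prime {p : ℕ} (hp : p.Prime) {P : W.Point} (hP : P ≠ 0)
    (hpP : p • P = 0) {k : ℕ} (hk1 : 1 ≤ k) (hkp : k < p) : k • P ≠ 0 := by
  intro hk
  have h1 : addOrderOf P ∣ p := addOrderOf_dvd_of_nsmul_eq_zero hpP
  have h2 : addOrderOf P ∣ k := addOrderOf_dvd_of_nsmul_eq_zero hk
  rcases (Nat.dvd_prime hp).mp h1 with h | h
  · exact hP (AddMonoid.addOrderOf_eq_one_iff.mp h)
  · rw [h] at h2
    exact absurd (Nat.le_of_dvd (by omega) h2) (by omega)

/-- (I')(i): the `x`-coordinate of a nonzero `p`-torsion point is a root of `preΨ'_p`. -/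
theorem preΨ'_eval_px_eq_zero (hI : InRange W) {p : ℕ} (hp : p.Prime) (hp2 : p ≠ 2)
    {P : W.Point} (hP : P ≠ 0) (hpP : p • P = 0) : (W.preΨ' p).eval (px P) = 0 := by
  rcases P with _ | ⟨x, y, h⟩
  · exact absurd rfl hP
  have hp1 : 1 ≤ p := hp.one_lt.le
  have key := hI x y h (p - 1) (fun k hk1 hk => nsmul_ne_zero_of_prime hp hP hpP hk1 (by omega))
  rw [Nat.sub_add_cancel hp1] at key
  have h0 := key.mp hpP
  rwa [evalEval_ψ_of_odd W h.1 (hp.odd_of_ne_two hp2)] at h0

/-- two points with the same `px` in a set of nonzero points: at most 2. -/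
lemma ncard_fiber_le_two (x : F) :
    {P : W.Point | P ≠ 0 ∧ px P = x}.ncard ≤ 2 := by
  classical
  by_cases hne : ∃ P : W.Point, P ≠ 0 ∧ px P = x
  · obtain ⟨P₀, hP₀, hx₀⟩ := hne
    have hsub : {P : W.Point | P ≠ 0 ∧ px P = x} ⊆ ({P₀, -P₀} : Finset W.Point) := by
      intro P hP
      have := eq_or_eq_neg_of_px_eq hP.1 hP₀ (hP.2.trans hx₀.symm)
      simp only [Finset.coe_insert, Finset.coe_singleton, Set.mem_insert_iff,
        Set.mem_singleton_iff]
      exact this
    calc {P : W.Point | P ≠ 0 ∧ px P = x}.ncard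
        ≤ (({P₀, -P₀} : Finset W.Point) : Set W.Point).ncard :=
          Set.ncard_le_ncard hsub (Finset.finite_toSet _)
      _ = ({P₀, -P₀} : Finset W.Point).card := Set.ncard_coe_finset _
      _ ≤ 2 := Finset.card_le_two
  · have : {P : W.Point | P ≠ 0 ∧ px P = x} = ∅ := by
      ext P
      simp only [Set.mem_ofPred_eq, Set.mem_empty_iff_false, iff_false]
      exact fun hP => hne ⟨P, hP⟩
    rw [this]; simp

lemma finite_fiber (x : F) : {P : W.Point | P ≠ 0 ∧ px P = x}.Finite := by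
  classical
  by_cases hne : ∃ P : W.Point, P ≠ 0 ∧ px P = x
  · obtain ⟨P₀, hP₀, hx₀⟩ := hne
    refine Set.Finite.subset (Finset.finite_toSet ({P₀, -P₀} : Finset W.Point)) ?_
    intro P hP
    have := eq_or_eq_neg_of_px_eq hP.1 hP₀ (hP.2.trans hx₀.symm)
    simp only [Finset.coe_insert, Finset.coe_singleton, Set.mem_insert_iff,
      Set.mem_singleton_iff]
    exact this
  · have : {P : W.Point | P ≠ 0 ∧ px P = x} = ∅ := by
      ext P
      simp only [Set.mem_ofPred_eq, Set.mem_empty_iff_false, iff_false]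
      exact fun hP => hne ⟨P, hP⟩
    rw [this]; exact Set.finite_empty

/-- The set of points whose `x`-coordinate is a root of a nonzero polynomial `Ψ`, plus `0`,
is finite with at most `1 + 2 deg Ψ` elements. -/
theorem ncard_le_of_roots (Ψ : F[X]) (hΨ : Ψ ≠ 0) (T : Set W.Point)
    (hT : ∀ P ∈ T, P ≠ 0 → Ψ.eval (px P) = 0) :
    T.Finite ∧ T.ncard ≤ 1 + 2 * Ψ.natDegree := by
  classical
  set S : Finset F := Ψ.roots.toFinset with hS
  have hScard : S.card ≤ Ψ.natDegree :=
    (Multiset.toFinset_card_le _).trans (Polynomial.card_roots' Ψ)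
  set U : Set W.Point := ⋃ x ∈ S, {P : W.Point | P ≠ 0 ∧ px P = x} with hU
  have hUfin : U.Finite := Set.Finite.biUnion (Finset.finite_toSet S) (fun x _ => finite_fiber x)
  have hsub : T ⊆ insert 0 U := by
    intro P hP
    by_cases h0 : P = 0
    · exact Or.inl h0
    · refine Or.inr ?_
      simp only [hU, Set.mem_iUnion, Set.mem_ofPred_eq, exists_prop]
      refine ⟨px P, ?_, h0, rfl⟩
      rw [hS, Multiset.mem_toFinset, Polynomial.mem_roots hΨ]
      exact hT P hP h0
  have hfin : (insert 0 U).Finite := hUfin.insert 0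
  refine ⟨hfin.subset hsub, ?_⟩
  have hUcard : U.ncard ≤ 2 * Ψ.natDegree := by
    calc U.ncard ≤ ∑ x ∈ S, {P : W.Point | P ≠ 0 ∧ px P = x}.ncard :=
          Finset.set_ncard_biUnion_le S _
      _ ≤ ∑ _x ∈ S, 2 := Finset.sum_le_sum (fun x _ => ncard_fiber_le_two x)
      _ = 2 * S.card := by rw [Finset.sum_const, smul_eq_mul, mul_comm]
      _ ≤ 2 * Ψ.natDegree := by omega
  calc T.ncard ≤ (insert 0 U).ncard := Set.ncard_le_ncard hsub hfin
    _ ≤ U.ncard + 1 := Set.ncard_insert_le 0 U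
    _ ≤ 1 + 2 * Ψ.natDegree := by omega

/-- (T-a) The `p`-torsion has at most `p²` points (`p` an odd prime, characteristic zero). -/
theorem card_torsionBy_le [CharZero F] (hI : InRange W) {p : ℕ} (hp : p.Prime) (hp2 : p ≠ 2) :
    Finite (Submodule.torsionBy ℤ W.Point (p : ℤ)) ∧
      Nat.card (Submodule.torsionBy ℤ W.Point (p : ℤ)) ≤ p ^ 2 := by
  have hpF : ((p : ℕ) : F) ≠ 0 := Nat.cast_ne_zero.mpr hp.ne_zero
  have hΨ : W.preΨ' p ≠ 0 := W.preΨ'_ne_zero hpF
  have hdeg : (W.preΨ' p).natDegree = (p ^ 2 - 1) / 2 := by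
    rw [W.natDegree_preΨ' hpF, if_neg (Nat.not_even_iff_odd.mpr (hp.odd_of_ne_two hp2))]
  have key := ncard_le_of_roots (W := W) (W.preΨ' p) hΨ
    ((Submodule.torsionBy ℤ W.Point (p : ℤ) : Set W.Point))
    (fun P hP h0 => by
      have hP' : ((p : ℕ) : ℤ) • P = 0 := (Submodule.mem_torsionBy_iff _ _).mp hP
      rw [natCast_zsmul] at hP'
      exact preΨ'_eval_px_eq_zero hI hp hp2 h0 hP')
  refine ⟨key.1.to_subtype, ?_⟩
  have h1 : Nat.card (Submodule.torsionBy ℤ W.Point (p : ℤ))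
      = ((Submodule.torsionBy ℤ W.Point (p : ℤ) : Set W.Point)).ncard :=
    Nat.card_coe_set_eq _
  rw [h1]
  refine key.2.trans ?_
  rw [hdeg]
  have hodd : Odd (p ^ 2) := (hp.odd_of_ne_two hp2).pow
  obtain ⟨m, hm⟩ := hodd
  omega

end Fermat.Agent.DivPoly
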