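import Mathlib
import Fermat.Agent.S05.H65.Sym

/-!
# Values of division polynomials at a point of a Weierstrass curve

Basic evaluation lemmas: on the curve, `ψ_n(x,y) = preΨ'_n(x)` for odd `n`,
`ψ₂(x,y)² = Ψ₂Sq(x)`, and the in-range statement `InRange` used by the torsion count.
-/

set_option autoImplicit false

namespace Fermat.Agent.DivPoly

open WeierstrassCurve Polynomial

section Basic

variable {R : Type*} [CommRing R] (W : WeierstrassCurve R) {x y : R}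

/-- On the curve, `ψ_n(x,y) = Ψ_n(x,y)`. -/
lemma evalEval_ψ_eq_Ψ (h : W.toAffine.Equation x y) (n : ℤ) :
    (W.ψ n).evalEval x y = (W.Ψ n).evalEval x y := by
  have h0 : W.toAffine.polynomial.evalEval x y = 0 := h
  have := congrArg (AdjoinRoot.evalEval h0) (Affine.CoordinateRing.mk_ψ W n)
  simpa only [AdjoinRoot.evalEval_mk] using this

/-- On the curve, `ψ_n(x,y) = preΨ'_n(x)` for odd `n`. -/
lemma evalEval_ψ_of_odd (h : W.toAffine.Equation x y) {n : ℕ} (hn : Odd n) :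
    (W.ψ (n : ℤ)).evalEval x y = (W.preΨ' n).eval x := by
  rw [evalEval_ψ_eq_Ψ W h, WeierstrassCurve.Ψ_ofNat, if_neg (Nat.not_even_iff_odd.mpr hn), mul_one,
    evalEval_C]

/-- On the curve, `ψ_n(x,y) = preΨ'_n(x) ψ₂(x,y)` for even `n`. -/
lemma evalEval_ψ_of_even (h : W.toAffine.Equation x y) {n : ℕ} (hn : Even n) :
    (W.ψ (n : ℤ)).evalEval x y = (W.preΨ' n).eval x * W.ψ₂.evalEval x y := by
  rw [evalEval_ψ_eq_Ψ W h, WeierstrassCurve.Ψ_ofNat, if_pos hn, evalEval_mul, evalEval_C]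

/-- `ψ₂(x,y)² = Ψ₂Sq(x)` on the curve. -/
lemma ψ₂_sq_eval (h : W.toAffine.Equation x y) :
    (W.ψ₂.evalEval x y) ^ 2 = W.Ψ₂Sq.eval x := by
  have h0 : W.toAffine.polynomial.evalEval x y = 0 := h
  have h1 := congrArg (Polynomial.evalEval x y) W.C_Ψ₂Sq
  rw [evalEval_C] at h1
  rw [h1, evalEval_sub, evalEval_pow, evalEval_mul, h0, mul_zero, sub_zero]

end Basic

/-- The in-range statement (I'): if `kQ ≠ 0` for `1 ≤ k ≤ N` then `(N+1)Q = 0 ↔ ψ_{N+1}(Q) = 0`. -/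
def InRange {F : Type*} [Field F] [DecidableEq F] (W : WeierstrassCurve.Affine F) : Prop :=
  ∀ (x y : F) (h : W.Nonsingular x y) (N : ℕ),
    (∀ k : ℕ, 1 ≤ k → k ≤ N → k • (Affine.Point.some x y h) ≠ 0) →
    ((N + 1) • (Affine.Point.some x y h) = 0 ↔ (W.ψ ((N + 1 : ℕ) : ℤ)).evalEval x y = 0)

end Fermat.Agent.DivPoly
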