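import Fermat.Agent.Lib.DivPoly.Card
import Fermat.Agent.S05.H75.KerRed
import Fermat.Agent.S05.H5.IntVal

/-!
# (T-b) Existence of a nonzero `p`-torsion point (p-adic argument)

If `preΨ'_p` takes a unit value at some integral `c` (for a valuation `v` with `v p < 1`), then it has
a root `r` with `1 < v r`; a point `Q = (r, y)` lies in the kernel of reduction, which has no torsion
of order `< p`, so the in-range statement gives `p • Q = 0`.
-/

set_option autoImplicit false

namespace Fermat.Agent.DivPoly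

open WeierstrassCurve Polynomial S05H65

section Root

variable {K : Type*} [Field K] {Γ₀ : Type*} [LinearOrderedCommGroupWithZero Γ₀]
  (v : Valuation K Γ₀)

lemma val_multiset_prod_le_one (s : Multiset K) (hs : ∀ a ∈ s, v a ≤ 1) : v s.prod ≤ 1 := by
  induction s using Multiset.induction_on with
  | empty => simp
  | cons a s ih =>
    rw [Multiset.prod_cons, map_mul]
    exact mul_le_one' (hs a (Multiset.mem_cons_self a s))
      (ih (fun b hb => hs b (Multiset.mem_cons_of_mem hb)))

/-- (b1) A split polynomial with nonunit leading coefficient and a unit value at an integral point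
has a non-integral root. -/
theorem exists_root_one_lt_val [IsAlgClosed K] (Ψ : K[X]) (hlead : v Ψ.leadingCoeff < 1)
    (c : K) (hc : v c ≤ 1) (hval : v (Ψ.eval c) = 1) : ∃ r : K, Ψ.eval r = 0 ∧ 1 < v r := by
  by_contra hcon
  push Not at hcon
  have hsplit : Ψ.Splits := IsAlgClosed.splits Ψ
  have hΨ0 : Ψ ≠ 0 := by
    rintro rfl
    simp at hval
  have h1 := hsplit.eval_eq_prod_roots c
  have h2 : v ((Ψ.roots.map (c - ·)).prod) ≤ 1 := by
    apply val_multiset_prod_le_one
    intro a ha
    rw [Multiset.mem_map] at ha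
    obtain ⟨r, hr, rfl⟩ := ha
    have hr0 : Ψ.eval r = 0 := (Polynomial.mem_roots hΨ0).mp hr
    exact (v.map_sub_le hc (hcon r hr0))
  have h3 : v (Ψ.eval c) < 1 := by
    rw [h1, map_mul]
    calc v Ψ.leadingCoeff * v ((Ψ.roots.map (c - ·)).prod)
        ≤ v Ψ.leadingCoeff * 1 := mul_le_mul' le_rfl h2
      _ = v Ψ.leadingCoeff := mul_one _
      _ < 1 := hlead
  rw [hval] at h3
  exact lt_irrefl _ h3

end Root

section Point

variable {K : Type*} [Field K] [DecidableEq K] {W : WeierstrassCurve.Affine K}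

omit [DecidableEq K] in
/-- Over an algebraically closed field every `x` is the `x`-coordinate of a point on the curve. -/
lemma exists_equation [IsAlgClosed K] (x : K) : ∃ y : K, W.Equation x y := by
  have hdeg : (X ^ 2 + C (W.a₁ * x + W.a₃) * X - C (x ^ 3 + W.a₂ * x ^ 2 + W.a₄ * x + W.a₆)
      : K[X]).degree ≠ 0 := by
    have : (X ^ 2 + C (W.a₁ * x + W.a₃) * X - C (x ^ 3 + W.a₂ * x ^ 2 + W.a₄ * x + W.a₆)
      : K[X]).degree = 2 := by
      compute_degree!
    rw [this]; norm_num
  obtain ⟨y, hy⟩ := IsAlgClosed.exists_root _ hdeg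
  refine ⟨y, ?_⟩
  rw [Affine.equation_iff]
  simp only [IsRoot.def, eval_sub, eval_add, eval_pow, eval_X, eval_mul, eval_C] at hy
  linear_combination hy

end Point

section Main

variable {K : Type*} [Field K] [DecidableEq K] {Γ₀ : Type*} [LinearOrderedCommGroupWithZero Γ₀]
  (v : Valuation K Γ₀) {W : WeierstrassCurve.Affine K}

/-- (b4) If `preΨ'_p` has a unit value at an integral point, there is a nonzero `p`-torsion point
(in the kernel of reduction). -/
theorem exists_torsion_of_unit_value [IsAlgClosed K] [CharZero K]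
    (hb₂ : v W.b₂ ≤ 1) (hb₄ : v W.b₄ ≤ 1) (hb₆ : v W.b₆ ≤ 1) (hb₈ : v W.b₈ ≤ 1)
    (hΔ : W.Δ ≠ 0) (hI : InRange W) {p : ℕ} (hp : p.Prime) (hp2 : p ≠ 2)
    (hvp : v (p : K) < 1) (c : K) (hc : v c ≤ 1) (hval : v ((W.preΨ' p).eval c) = 1) :
    ∃ P : W.Point, P ≠ 0 ∧ p • P = 0 ∧ 1 < v (px P) := by
  have hpK : ((p : ℕ) : K) ≠ 0 := Nat.cast_ne_zero.mpr hp.ne_zero
  have hodd : Odd p := hp.odd_of_ne_two hp2
  have hlead : (W.preΨ' p).leadingCoeff = (p : K) := by
    rw [W.leadingCoeff_preΨ' hpK, if_neg (Nat.not_even_iff_odd.mpr hodd)]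
  obtain ⟨r, hr0, hr⟩ := exists_root_one_lt_val v (W.preΨ' p) (hlead ▸ hvp) c hc hval
  obtain ⟨y, hy⟩ := exists_equation (W := W) r
  have hns : W.Nonsingular r y := (W.equation_iff_nonsingular_of_Δ_ne_zero hΔ).mp hy
  refine ⟨Affine.Point.some r y hns, Affine.Point.some_ne_zero _, ?_, hr⟩
  have hG1 : S05H75.InG1 v (Affine.Point.some r y hns) := Or.inr hr
  have hlt : ∀ k : ℕ, 1 ≤ k → k ≤ p - 1 → k • (Affine.Point.some r y hns) ≠ 0 := by
    intro k hk1 hkp hk0
    have hndvd : ¬ p ∣ k := fun hd => by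
      have := Nat.le_of_dvd (by omega) hd
      have := hp.one_lt
      omega
    have hvk : v (k : K) = 1 := S05H5.v_natCast_eq_one v hp hvp hndvd
    have hzero := S05H75.inG1_torsion_free v hb₂ hb₄ hb₆ hb₈ hvk hG1 hk0
    exact Affine.Point.some_ne_zero _ hzero
  have key := hI r y hns (p - 1) hlt
  rw [Nat.sub_add_cancel hp.one_lt.le] at key
  rw [key, evalEval_ψ_of_odd W hy hodd]
  exact hr0

end Main

end Fermat.Agent.DivPoly
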